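import Mathlib
import Fermat.Agent.LT.T7.H558.FactDownSpec

/-!
# Row LT, tower T7, node C2.7.7 `FactDownC305`, leaf FD.7 `PtFactC558` (helper454)

OFF-MAIN.  No `sorry`, nothing assumed.  Spec: `T7/H558/FactDownSpec.lean` (sha256 8043f526,
helper558), byte-identical copy, with its closure.  Mathlib + the definitions of the spec only.

    ptFactC454 (K) : H558.PtFactC558 K

For `y ∈ Out_S`, `γ` integral outside `S` and the ray generator `r`:
`pure305 S f₀ F (y⁻¹ γ y r^j) = ∏_{v ∈ S} f₀ v (y_v⁻¹ γ_v y_v) · ∏_w F w (y_w⁻¹ (γ r^j)_w y_w)`.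
`Out_S` is a group which contains `γ` and `r^j` (trivial at the finite places); the components
are homomorphisms; the component of `r` at an infinite place is a scalar matrix.
-/

set_option autoImplicit false

open IsDedekindDomain NumberField

noncomputable section

namespace Fermat.Agent.LT.T7.H454.PtFact

open Fermat.Agent.LT.H556 Fermat.Agent.LT.H556.A0 Fermat.Agent.LT.T7 Fermat.Agent.LT.T7.H305

variable {K : Type} [Field K] [NumberField K]

/-! ## 1. Components -/

theorem onG_id454 (y : G K) : (T5.AdelicAut.id K).onG y = y := by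
  apply Units.ext
  ext i j
  rfl

theorem finGL_ratG454 (v : HeightOneSpectrum (𝓞 K)) (γ : GL (Fin 2) K) :
    finGL305 v (T5.ratG γ) = locG305 v γ := by
  apply Units.ext
  ext i j
  rfl

theorem finComp_eq_finGL454 (v : HeightOneSpectrum (𝓞 K)) (g : G K) :
    finComp v g = (finGL305 v g : Matrix (Fin 2) (Fin 2) (v.adicCompletion K)) := rfl

theorem infComp_eq_infGL454 (w : InfinitePlace K) (g : G K) :
    infComp w g = (infGL305 w g : Matrix (Fin 2) (Fin 2) ℂ) := rfl

theorem finGL_eq_one454 {v : HeightOneSpectrum (𝓞 K)} {g : G K} (h : TrivAtFin v g) :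
    finGL305 v g = 1 := by
  apply Units.ext
  rw [← finComp_eq_finGL454]
  exact h

theorem finComp_mul454 (v : HeightOneSpectrum (𝓞 K)) (g h : G K) :
    finComp v (g * h) = finComp v g * finComp v h := by
  rw [finComp_eq_finGL454, finComp_eq_finGL454, finComp_eq_finGL454, map_mul, Units.val_mul]

/-! ## 2. `Out_S` is a group -/

/-- Integral with integral inverse at `v`. -/
def IntAt454 (v : HeightOneSpectrum (𝓞 K)) (g : G K) : Prop :=
  IsIntegralAt v g ∧ IsIntegralAt v g⁻¹

theorem isIntegralAt_mul454 (v : HeightOneSpectrum (𝓞 K)) {g h : G K} (hg : IsIntegralAt v g)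
    (hh : IsIntegralAt v h) : IsIntegralAt v (g * h) := by
  intro i j
  rw [finComp_mul454, Matrix.mul_apply]
  exact sum_mem fun k _ => mul_mem (hg i k) (hh k j)

theorem intAt_mul454 {v : HeightOneSpectrum (𝓞 K)} {g h : G K} (hg : IntAt454 v g)
    (hh : IntAt454 v h) : IntAt454 v (g * h) := by
  refine ⟨isIntegralAt_mul454 v hg.1 hh.1, ?_⟩
  rw [mul_inv_rev]
  exact isIntegralAt_mul454 v hh.2 hg.2

theorem intAt_inv454 {v : HeightOneSpectrum (𝓞 K)} {g : G K} (hg : IntAt454 v g) :
    IntAt454 v g⁻¹ := by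
  refine ⟨hg.2, ?_⟩
  rw [inv_inv]
  exact hg.1

theorem isIntegralAt_of_triv454 {v : HeightOneSpectrum (𝓞 K)} {g : G K} (hg : TrivAtFin v g) :
    IsIntegralAt v g := by
  intro i j
  have h1 : finComp v g = 1 := hg
  rw [h1, Matrix.one_apply]
  split_ifs
  · exact one_mem _
  · exact zero_mem _

theorem trivAtFin_of_finGL454 {v : HeightOneSpectrum (𝓞 K)} {g : G K} (h : finGL305 v g = 1) :
    TrivAtFin v g := by
  show finComp v g = 1
  rw [finComp_eq_finGL454, h]
  rfl

theorem intAt_of_triv454 {v : HeightOneSpectrum (𝓞 K)} {g : G K} (hg : TrivAtFin v g) :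
    IntAt454 v g := by
  refine ⟨isIntegralAt_of_triv454 hg, isIntegralAt_of_triv454 (trivAtFin_of_finGL454 ?_)⟩
  rw [map_inv, finGL_eq_one454 hg, inv_one]

/-- An element of `U(0)` has integral entries. -/
theorem mem_integers_of_sub_one454 (v : HeightOneSpectrum (𝓞 K))
    (M : Matrix (Fin 2) (Fin 2) (v.adicCompletion K)) (i j : Fin 2)
    (h : Valued.v (M i j - (1 : Matrix (Fin 2) (Fin 2) (v.adicCompletion K)) i j)
      ≤ WithZero.exp (-((0 : ℕ) : ℤ))) :
    M i j ∈ v.adicCompletionIntegers K := by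
  have h0 : WithZero.exp (-((0 : ℕ) : ℤ)) = (1 : WithZero (Multiplicative ℤ)) := by
    rw [Nat.cast_zero, neg_zero, WithZero.exp_zero]
  rw [h0] at h
  have h1 : M i j - (1 : Matrix (Fin 2) (Fin 2) (v.adicCompletion K)) i j
      ∈ v.adicCompletionIntegers K :=
    (HeightOneSpectrum.mem_adicCompletionIntegers (𝓞 K) K v).mpr h
  have h2 : (1 : Matrix (Fin 2) (Fin 2) (v.adicCompletion K)) i j
      ∈ v.adicCompletionIntegers K := by
    rw [Matrix.one_apply]
    split_ifs
    · exact one_mem _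
    · exact zero_mem _
  have h3 := add_mem h1 h2
  rwa [sub_add_cancel] at h3

theorem intAt_ratG454 {v : HeightOneSpectrum (𝓞 K)} {γ : GL (Fin 2) K}
    (h : T6.InU 0 (locG305 v γ)) : IntAt454 v (T5.ratG γ) := by
  constructor
  · intro i j
    rw [finComp_eq_finGL454, finGL_ratG454]
    exact mem_integers_of_sub_one454 v _ i j (h i j).1
  · intro i j
    rw [finComp_eq_finGL454, map_inv, finGL_ratG454]
    exact mem_integers_of_sub_one454 v _ i j (h i j).2

theorem finGL_ray_zpow454 {r : G K} (hr : T5.IsRayGen r) (v : HeightOneSpectrum (𝓞 K)) (j : ℤ) :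
    finGL305 v (r ^ j) = 1 := by
  rw [map_zpow, finGL_eq_one454 (hr.1 v), one_zpow]

/-! ## 3. The ray generator is central at infinity -/

theorem commute_infGL_ray454 {r : G K} (hr : T5.IsRayGen r) (w : InfinitePlace K)
    (Y : GL (Fin 2) ℂ) : Commute (infGL305 w r) Y := by
  obtain ⟨t, -, -, ht⟩ := hr.2
  have h1 : (infGL305 w r : Matrix (Fin 2) (Fin 2) ℂ) = Matrix.diagonal fun _ => (t : ℂ) := by
    rw [← infComp_eq_infGL454]
    exact ht w
  apply Units.ext
  rw [Units.val_mul, Units.val_mul, h1]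
  ext i k
  rw [Matrix.diagonal_mul, Matrix.mul_diagonal, mul_comm]

/-! ## 4. The leaf -/

/-- **LEAF FD.7 = PT-FACT.** -/
theorem ptFactC454 (K : Type) [Field K] [NumberField K] :
    Fermat.Agent.LT.T7.H558.PtFactC558 K := by
  intro r hr S f₀ F γ hγ y j hy
  rw [onG_id454]
  have hout : OutT305 S (y⁻¹ * T5.ratG γ * y * r ^ j) := by
    intro v hv
    have hyv : IntAt454 v y := hy v hv
    have hγv : IntAt454 v (T5.ratG γ) := intAt_ratG454 (hγ v hv)
    have hrv : IntAt454 v (r ^ j) :=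
      intAt_of_triv454 (trivAtFin_of_finGL454 (finGL_ray_zpow454 hr v j))
    exact intAt_mul454 (intAt_mul454 (intAt_mul454 (intAt_inv454 hyv) hγv) hyv) hrv
  have e : pure305 S f₀ F (y⁻¹ * T5.ratG γ * y * r ^ j)
      = (∏ v ∈ S, f₀ v (finGL305 v (y⁻¹ * T5.ratG γ * y * r ^ j))) *
        ∏ w : InfinitePlace K, F w (infGL305 w (y⁻¹ * T5.ratG γ * y * r ^ j)) :=
    if_pos hout
  rw [e]
  have hfin : ∀ v : HeightOneSpectrum (𝓞 K), finGL305 v (y⁻¹ * T5.ratG γ * y * r ^ j)
      = (finGL305 v y)⁻¹ * locG305 v γ * finGL305 v y := by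
    intro v
    rw [map_mul, map_mul, map_mul, map_inv, finGL_ratG454, finGL_ray_zpow454 hr v j, mul_one]
  have hinf : ∀ w : InfinitePlace K, infGL305 w (y⁻¹ * T5.ratG γ * y * r ^ j)
      = (infGL305 w y)⁻¹ * infGL305 w (T5.ratG γ * r ^ j) * infGL305 w y := by
    intro w
    have hc : Commute (infGL305 w r ^ j) (infGL305 w y) :=
      (commute_infGL_ray454 hr w (infGL305 w y)).zpow_left j
    rw [map_mul, map_mul, map_mul, map_mul, map_inv, map_zpow, mul_assoc, mul_assoc, mul_assoc,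
      mul_assoc, hc.eq]
  have e1 : (∏ v ∈ S, f₀ v (finGL305 v (y⁻¹ * T5.ratG γ * y * r ^ j)))
      = ∏ v ∈ S, f₀ v ((finGL305 v y)⁻¹ * locG305 v γ * finGL305 v y) :=
    Finset.prod_congr rfl fun v _ => by rw [hfin v]
  have e2 : (∏ w : InfinitePlace K, F w (infGL305 w (y⁻¹ * T5.ratG γ * y * r ^ j)))
      = ∏ w : InfinitePlace K,
          F w ((infGL305 w y)⁻¹ * infGL305 w (T5.ratG γ * r ^ j) * infGL305 w y) :=
    Finset.prod_congr rfl fun w _ => by rw [hinf w]
  rw [e1, e2]

end Fermat.Agent.LT.T7.H454.PtFact
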