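import Mathlib
import Fermat.Agent.LT.T7.H864.UpDatQSpec
import Fermat.Agent.LT.T7.H584.NormLocTop
import Fermat.Agent.LT.T7.H729.LocMeas
import Fermat.Agent.LT.T7.H543.LocCut

/-!
# Row LT, tower T7, leaf T7.L2Q.1.H1.5.8.1.a.1 `H864.UpInertQC864 F` (registry row 2840, helper454)

OFF-MAIN.  Statement: `LT/T7/H864/UpDatQSpec.lean` of helper864 (sha256 `0b9abd48…`,
byte-identical copy).

    upInertQC454 (F) : H864.UpInertQC864 F        (UNCONDITIONAL)

Proof.  `(e, i, s_w)`: `T6.InstExtC` (field of `T6.T6Out`) for the generator `algAut584 D hD`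
(helper584), with the uniqueness in the form of ideals (a place which contains the image of `v`
lies over `v`: `v` is maximal).  `F_w` is a local field (`T6.InstLocalC`, field of `T6.T6Out`).
The twisted norm of `δ_w` is the image of `N δ = γ` (the twisted norm commutes with the
localisation; `twNorm_eq_normUpTo584`), which is regular (the discriminant commutes with ring
homomorphisms, `γ` is regular).  `μ'`, `μt'`: `locMeasC729` (helper729); `β'`: `locCutC543`
(helper543).  `J` := the local twisted integral.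
-/

set_option autoImplicit false
set_option linter.style.haveILetI false
set_option linter.unusedSectionVars false

open IsDedekindDomain NumberField MeasureTheory

noncomputable section

namespace Fermat.Agent.LT.T7.H454.UpInertQ

open Fermat.Agent.LT.H556 Fermat.Agent.LT.H556.A0 Fermat.Agent.LT.T7 Fermat.Agent.LT.T7.H305
open Fermat.Agent.LT.T7.H340 Fermat.Agent.LT.T7.H1U

/-- The abstract twisted norm commutes with a homomorphism which intertwines the twists. -/
theorem twN_map454 {Γ Γ' : Type} [Group Γ] [Group Γ'] (s : Γ →* Γ) (s' : Γ' →* Γ')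
    (f : Γ →* Γ') (h : ∀ x : Γ, f (s x) = s' (f x)) :
    ∀ (n : ℕ) (δ : Γ), f (T6.twN s n δ) = T6.twN s' n (f δ)
  | 0, _ => by
      change f 1 = 1
      exact map_one f
  | n + 1, δ => by
      have ih := twN_map454 s s' f h n δ
      change f (δ * s (T6.twN s n δ)) = f δ * s' (T6.twN s' n (f δ))
      rw [map_mul, h, ih]

/-- The discriminant commutes with ring homomorphisms. -/
theorem disc_map454 {R R' : Type} [CommRing R] [CommRing R'] (f : R →+* R')
    (γ : GL (Fin 2) R) :
    T6.disc (Matrix.GeneralLinearGroup.map f γ) = f (T6.disc γ) := by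
  have h1 : ((Matrix.GeneralLinearGroup.map f γ : GL (Fin 2) R') :
      Matrix (Fin 2) (Fin 2) R') = f.mapMatrix (γ : Matrix (Fin 2) (Fin 2) R) := rfl
  change ((Matrix.GeneralLinearGroup.map f γ : GL (Fin 2) R') :
      Matrix (Fin 2) (Fin 2) R').trace ^ 2
      - 4 * ((Matrix.GeneralLinearGroup.map f γ : GL (Fin 2) R') :
      Matrix (Fin 2) (Fin 2) R').det
    = f ((γ : Matrix (Fin 2) (Fin 2) R).trace ^ 2 - 4 * (γ : Matrix (Fin 2) (Fin 2) R).det)
  rw [h1, Matrix.trace_fin_two, Matrix.det_fin_two, Matrix.trace_fin_two, Matrix.det_fin_two]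
  simp only [RingHom.mapMatrix_apply, Matrix.map_apply, map_sub, map_pow, map_mul, map_add,
    map_ofNat]

/-- Regular elements stay regular under ring homomorphisms. -/
theorem isReg_map454 {R R' : Type} [CommRing R] [CommRing R'] (f : R →+* R')
    (γ : GL (Fin 2) R) (h : T6.IsReg γ) : T6.IsReg (Matrix.GeneralLinearGroup.map f γ) := by
  have h' : IsUnit (T6.disc γ) := h
  change IsUnit (T6.disc (Matrix.GeneralLinearGroup.map f γ))
  rw [disc_map454]
  exact h'.map f

section

variable {K K' : Type} [Field K] [NumberField K] [Field K'] [NumberField K'] [Algebra K K']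

/-- A place `w'` which contains the image of `v` lies over `v`. -/
theorem placeOver_of_le454 {v : HeightOneSpectrum (𝓞 K)} {w' : HeightOneSpectrum (𝓞 K')}
    (h : ∀ x : 𝓞 K, x ∈ v.asIdeal → algebraMap (𝓞 K) (𝓞 K') x ∈ w'.asIdeal) :
    PlaceOver K K' v w' := by
  haveI := w'.isPrime
  have hmax : v.asIdeal.IsMaximal := v.isMaximal
  have hle : v.asIdeal ≤ Ideal.comap (algebraMap (𝓞 K) (𝓞 K')) w'.asIdeal := fun x hx =>
    Ideal.mem_comap.2 (h x hx)
  have hprime : (Ideal.comap (algebraMap (𝓞 K) (𝓞 K')) w'.asIdeal).IsPrime :=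
    Ideal.comap_isPrime _ _
  have heq : v.asIdeal = Ideal.comap (algebraMap (𝓞 K) (𝓞 K')) w'.asIdeal :=
    hmax.eq_of_le hprime.ne_top hle
  intro x y hxy
  have hy : y = algebraMap (𝓞 K) (𝓞 K') x := NumberField.RingOfIntegers.ext (hxy.trans rfl)
  rw [hy, heq, Ideal.mem_comap]

end

/-- **LEAF UQ.1 `UpInertQC864` of helper864, PROVED (unconditional).** -/
theorem upInertQC454 (F : Type) [Field F] [NumberField F] : H864.UpInertQC864 F := by
  intro hT6 D hD hc n φ₀ δ γ hγ hN v w hvw huniq
  have hIL : T6.InstLocalC := hT6.2.2.2.2.2.1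
  have hIE : T6.InstExtC := hT6.2.2.2.2.2.2.1
  haveI := hc.galois
  have hprime : (Module.finrank ℚ F).Prime := by rw [hc.degree]; exact hc.prime
  obtain ⟨e, i, sw, hi, hsw, hext, _⟩ := hIE ℚ F (H584.algAut584 D hD)
    (H584.algAut_gen584 D hD hc) hprime v w
    (fun x => hvw x (algebraMap (𝓞 ℚ) (𝓞 F) x) rfl)
    (fun w' hw' => huniq w' (placeOver_of_le454 hw'))
  rw [hc.degree] at hext
  have hsw' : ∀ y : F, sw (algebraMap F (w.adicCompletion F) y)
      = algebraMap F (w.adicCompletion F) (D.s.σ y) := fun y => hsw y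
  have hloc : T6.IsLocalField (w.adicCompletion F) (Ideal.absNorm w.asIdeal) := hIL F w
  -- the twisted norm of `δ_w` is the image of `γ`
  have hcomm : ∀ x : GL (Fin 2) F,
      locG305 w (T6.glAut D.s.σ x) = T6.glAut sw (locG305 w x) := by
    intro x
    apply Matrix.GeneralLinearGroup.ext
    intro a b
    exact (hsw' (x a b)).symm
  have htw : T6.twNorm sw D.l (locG305 w δ)
      = locG305 w (Matrix.GeneralLinearGroup.map (algebraMap ℚ F) γ) := by
    rw [← hN, ← H584.twNorm_eq_normUpTo584]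
    exact (twN_map454 (T6.glAut D.s.σ) (T6.glAut sw) (locG305 w) hcomm D.l δ).symm
  have hreg : T6.IsReg (T6.twNorm sw D.l (locG305 w δ)) := by
    rw [htw]
    exact isReg_map454 _ _ (isReg_map454 _ _ hγ.1)
  obtain ⟨hμ, hμT⟩ := LocMeas729.locMeasC729 (w.adicCompletion F) _ hloc
  obtain ⟨μ', hμ'⟩ := hμ (n w)
  obtain ⟨μt', hμt'⟩ := hμT D.l sw hext.val_s hext.cyc.pos hext.cyc.order (locG305 w δ) hreg
  obtain ⟨β', hβ'⟩ := H543C.locCutC543 (w.adicCompletion F) _ hloc D.l sw hext.val_s
    hext.cyc.pos hext.cyc.order (locG305 w δ) hreg μt' hμt'.1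
  exact ⟨β', _, e, i, sw, μ', μt', hvw, huniq, hi, hsw', hext, hμ', hμt', hβ', rfl⟩

end Fermat.Agent.LT.T7.H454.UpInertQ

end
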