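import Mathlib
import Fermat.Agent.LT.T7.H193.ProjSpec

/-!
# Row LT, tower T7, node T7.L2.1, sub-station PROJ, leaf P04 `FinDataAsmC` (helper454)

OFF-MAIN.  No `sorry`, nothing assumed.  Spec: `T7/H193/ProjSpec.lean` (sha256 977a85e3, helper193),
byte-identical copy.

    finDataAsmC454 (K) : H193.FinDataAsmC K      -- = HGroupC K → FinIndexC K → FinDataC K

`H = I_o · U(𝔑₀)` is a subgroup (`HGroupC`), `U(𝔑) ≤ H` (monotonicity of the closure of the
ideal), every element of `H` is trivial at infinity and integral with integral inverse at every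
finite place, so `H / U(𝔑)` injects into the finite set `T` of `FinIndexC`; `Rep` = the chosen
representatives (`Quotient.out`) of the classes; left multiplication by `h₀ ∈ H` permutes the
classes.
-/

set_option autoImplicit false

open IsDedekindDomain NumberField

noncomputable section

namespace Fermat.Agent.LT.T7.H454

open Fermat.Agent.LT.H556 Fermat.Agent.LT.H556.A0 Fermat.Agent.LT Fermat.Agent.LT.T7.H193

variable {K : Type} [Field K] [NumberField K]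

/-! ## 1. The local components are multiplicative -/

/-- Evaluation at the finite place `v`, as a ring homomorphism. -/
def evFin454 (v : HeightOneSpectrum (𝓞 K)) : Adl K →+* v.adicCompletion K :=
  (RestrictedProduct.evalRingHom (fun v : HeightOneSpectrum (𝓞 K) => v.adicCompletion K) v).comp
    (RingHom.snd (InfiniteAdeleRing K) (FiniteAdeleRing (𝓞 K) K))

/-- Evaluation at the infinite place `w`, as a ring homomorphism. -/
def evInf454 (w : InfinitePlace K) : Adl K →+* w.Completion :=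
  (Pi.evalRingHom (fun w : InfinitePlace K => w.Completion) w).comp
    (RingHom.fst (InfiniteAdeleRing K) (FiniteAdeleRing (𝓞 K) K))

theorem finComp_eq454 (v : HeightOneSpectrum (𝓞 K)) (g : G K) :
    finComp v g = (evFin454 v).mapMatrix (g : Matrix (Fin 2) (Fin 2) (Adl K)) :=
  Matrix.ext fun _ _ => rfl

theorem finComp_mul454 (v : HeightOneSpectrum (𝓞 K)) (g h : G K) :
    finComp v (g * h) = finComp v g * finComp v h := by
  rw [finComp_eq454, finComp_eq454, finComp_eq454, Units.val_mul, map_mul]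

theorem finComp_one454 (v : HeightOneSpectrum (𝓞 K)) : finComp v (1 : G K) = 1 := by
  rw [finComp_eq454, Units.val_one, map_one]

theorem trivAtInf_iff454 (w : InfinitePlace K) (g : G K) :
    TrivAtInf w g ↔ (evInf454 w).mapMatrix (g : Matrix (Fin 2) (Fin 2) (Adl K)) = 1 := by
  constructor
  · intro h
    exact Matrix.ext fun i j => h i j
  · intro h i j
    have := congrFun (congrFun h i) j
    exact this

theorem trivAtInf_mul454 (w : InfinitePlace K) {g h : G K} (hg : TrivAtInf w g)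
    (hh : TrivAtInf w h) : TrivAtInf w (g * h) := by
  rw [trivAtInf_iff454] at hg hh ⊢
  rw [Units.val_mul, map_mul, hg, hh, one_mul]

/-! ## 2. Integrality -/

theorem isIntegralAt_mul454 (v : HeightOneSpectrum (𝓞 K)) {g h : G K} (hg : IsIntegralAt v g)
    (hh : IsIntegralAt v h) : IsIntegralAt v (g * h) := by
  intro i j
  rw [finComp_mul454, Matrix.mul_apply]
  exact sum_mem fun k _ => mul_mem (hg i k) (hh k j)

theorem isIntegralAt_of_triv454 (v : HeightOneSpectrum (𝓞 K)) {g : G K} (hg : TrivAtFin v g) :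
    IsIntegralAt v g := by
  intro i j
  have h1 : finComp v g = 1 := hg
  rw [h1, Matrix.one_apply]
  split_ifs
  · exact one_mem _
  · exact zero_mem _

theorem idealClosure_subset454 (𝔫 : Ideal (𝓞 K)) (v : HeightOneSpectrum (𝓞 K)) :
    idealClosure 𝔫 v ⊆ (v.adicCompletionIntegers K : Set (v.adicCompletion K)) := by
  refine closure_minimal ?_ (Valued.isClosed_valuationSubring (v.adicCompletion K))
  rintro _ ⟨x, -, rfl⟩
  exact HeightOneSpectrum.coe_mem_adicCompletionIntegers v x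

theorem idealClosure_mono454 {𝔫 𝔫₀ : Ideal (𝓞 K)} (h : 𝔫 ≤ 𝔫₀) (v : HeightOneSpectrum (𝓞 K)) :
    idealClosure 𝔫 v ⊆ idealClosure 𝔫₀ v :=
  closure_mono (Set.image_mono h)

theorem inLevelGroup_mono454 {𝔫 𝔫₀ : Ideal (𝓞 K)} (h : 𝔫 ≤ 𝔫₀) {u : G K}
    (hu : InLevelGroup 𝔫 u) : InLevelGroup 𝔫₀ u :=
  ⟨hu.1, fun v i j => ⟨idealClosure_mono454 h v (hu.2 v i j).1,
    idealClosure_mono454 h v (hu.2 v i j).2⟩⟩

theorem isIntegralAt_of_sub_one454 (v : HeightOneSpectrum (𝓞 K)) (𝔫 : Ideal (𝓞 K)) {g : G K}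
    (hg : ∀ i j, (finComp v g - 1) i j ∈ idealClosure 𝔫 v) : IsIntegralAt v g := by
  intro i j
  have h1 : finComp v g i j = (finComp v g - 1) i j + (1 : Matrix (Fin 2) (Fin 2) _) i j := by
    rw [Matrix.sub_apply, sub_add_cancel]
  rw [h1]
  refine add_mem (idealClosure_subset454 𝔫 v (hg i j)) ?_
  rw [Matrix.one_apply]
  split_ifs
  · exact one_mem _
  · exact zero_mem _

theorem inLevelGroup_integral454 {𝔫 : Ideal (𝓞 K)} {u : G K} (hu : InLevelGroup 𝔫 u)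
    (v : HeightOneSpectrum (𝓞 K)) : IsIntegralAt v u ∧ IsIntegralAt v u⁻¹ :=
  ⟨isIntegralAt_of_sub_one454 v 𝔫 fun i j => (hu.2 v i j).1,
    isIntegralAt_of_sub_one454 v 𝔫 fun i j => (hu.2 v i j).2⟩

/-- An Iwahori element of the orbit is integral at every finite place. -/
theorem isIwElt_integral454 {l : ℕ} {o : ℕ → HeightOneSpectrum (𝓞 K)} {i : G K}
    (hi : IsIwElt l o i) (v : HeightOneSpectrum (𝓞 K)) : IsIntegralAt v i := by
  by_cases hv : ∀ j < l, v ≠ o j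
  · exact isIntegralAt_of_triv454 v (hi.2.1 v hv)
  · have hv' : ∃ j, j < l ∧ v = o j := by
      by_contra hcon
      exact hv fun j hj hvj => hcon ⟨j, hj, hvj⟩
    obtain ⟨j, hj, rfl⟩ := hv'
    exact (hi.2.2 j hj).1

/-! ## 3. The two groups -/

/-- `H = I_o · U(𝔑₀)`, a subgroup by `HGroupC`. -/
def hSub454 (hG : HGroupC K) (𝔑₀ : Ideal (𝓞 K)) (l : ℕ) (o : ℕ → HeightOneSpectrum (𝓞 K)) :
    Subgroup (G K) where
  carrier := {h | ∃ i u : G K, IsIwElt l o i ∧ InLevelGroup 𝔑₀ u ∧ h = i * u}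
  mul_mem' := by
    rintro _ _ ⟨i, u, hi, hu, rfl⟩ ⟨i', u', hi', hu', rfl⟩
    obtain ⟨h1, -, h3, -, -, -, h7⟩ := hG 𝔑₀ l o
    refine ⟨i * i', i'⁻¹ * u * i' * u', h1 i i' hi hi', h3 _ _ (h7 i' u hi' hu) hu', ?_⟩
    group
  one_mem' := by
    obtain ⟨-, -, -, -, h5, h6, -⟩ := hG 𝔑₀ l o
    exact ⟨1, 1, h6, h5, (mul_one 1).symm⟩
  inv_mem' := by
    rintro _ ⟨i, u, hi, hu, rfl⟩
    obtain ⟨-, h2, -, h4, -, -, h7⟩ := hG 𝔑₀ l o
    refine ⟨i⁻¹, (i⁻¹)⁻¹ * u⁻¹ * i⁻¹, h2 i hi, h7 i⁻¹ u⁻¹ (h2 i hi) (h4 u hu), ?_⟩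
    group

theorem mem_hSub454 (hG : HGroupC K) (𝔑₀ : Ideal (𝓞 K)) (l : ℕ)
    (o : ℕ → HeightOneSpectrum (𝓞 K)) (h : G K) :
    h ∈ hSub454 hG 𝔑₀ l o ↔ ∃ i u : G K, IsIwElt l o i ∧ InLevelGroup 𝔑₀ u ∧ h = i * u :=
  Iff.rfl

/-- `U(𝔑)`, a subgroup by `HGroupC`. -/
def uSub454 (hG : HGroupC K) (𝔑 : Ideal (𝓞 K)) (l : ℕ) (o : ℕ → HeightOneSpectrum (𝓞 K)) :
    Subgroup (G K) where
  carrier := {u | InLevelGroup 𝔑 u}
  mul_mem' := fun {a b} ha hb => (hG 𝔑 l o).2.2.1 a b ha hb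
  one_mem' := (hG 𝔑 l o).2.2.2.2.1
  inv_mem' := fun {a} ha => (hG 𝔑 l o).2.2.2.1 a ha

theorem mem_uSub454 (hG : HGroupC K) (𝔑 : Ideal (𝓞 K)) (l : ℕ)
    (o : ℕ → HeightOneSpectrum (𝓞 K)) (u : G K) :
    u ∈ uSub454 hG 𝔑 l o ↔ InLevelGroup 𝔑 u :=
  Iff.rfl

/-- Every element of `H` is trivial at infinity and integral with integral inverse at every
finite place. -/
theorem hSub_integral454 (hG : HGroupC K) (𝔑₀ : Ideal (𝓞 K)) (l : ℕ)
    (o : ℕ → HeightOneSpectrum (𝓞 K)) {h : G K} (hh : h ∈ hSub454 hG 𝔑₀ l o) :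
    (∀ w : InfinitePlace K, TrivAtInf w h) ∧
      ∀ v : HeightOneSpectrum (𝓞 K), IsIntegralAt v h ∧ IsIntegralAt v h⁻¹ := by
  obtain ⟨i, u, hi, hu, rfl⟩ := hh
  have hi' : IsIwElt l o i⁻¹ := (hG 𝔑₀ l o).2.1 i hi
  refine ⟨fun w => trivAtInf_mul454 w (hi.1 w) (hu.1 w), fun v => ⟨?_, ?_⟩⟩
  · exact isIntegralAt_mul454 v (isIwElt_integral454 hi v) (inLevelGroup_integral454 hu v).1
  · rw [mul_inv_rev]
    exact isIntegralAt_mul454 v (inLevelGroup_integral454 hu v).2 (isIwElt_integral454 hi' v)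

/-! ## 4. The assembly -/

/-- **LEAF PROJ.2c = FIN-DATA (assembly).** -/
theorem finDataAsmC454 (K : Type) [Field K] [NumberField K] : FinDataAsmC K := by
  intro hG hF 𝔑 𝔑₀ h𝔑 hle l o
  classical
  obtain ⟨T, hT⟩ := hF 𝔑 h𝔑
  -- the two groups
  let Hs : Subgroup (G K) := hSub454 hG 𝔑₀ l o
  let Us : Subgroup (G K) := uSub454 hG 𝔑 l o
  have hlev : ∀ u : G K, InLevelGroup 𝔑₀ u → u ∈ Hs := fun u hu =>
    ⟨1, u, (hG 𝔑₀ l o).2.2.2.2.2.1, hu, (one_mul u).symm⟩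
  have hiw : ∀ i : G K, IsIwElt l o i → i ∈ Hs := fun i hi =>
    ⟨i, 1, hi, (hG 𝔑₀ l o).2.2.2.2.1, (mul_one i).symm⟩
  -- the finite set `T` covers `H`
  have hcov : ∀ h : G K, h ∈ Hs → ∃ τ : G K, τ ∈ T ∧ τ⁻¹ * h ∈ Us := by
    intro h hh
    obtain ⟨h1, h2⟩ := hSub_integral454 hG 𝔑₀ l o hh
    obtain ⟨τ, hτ, hτu⟩ := hT h h1 h2
    exact ⟨τ, hτ, hτu⟩
  choose! τ hτT hτU using hcov
  -- the quotient
  let N : Subgroup Hs := Us.subgroupOf Hs
  let rep : (Hs ⧸ N) → G K := fun q => ((Quotient.out q : Hs) : G K)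
  have hrepH : ∀ q : Hs ⧸ N, rep q ∈ Hs := fun q => (Quotient.out q : Hs).2
  have hmk : ∀ q : Hs ⧸ N, (QuotientGroup.mk (Quotient.out q : Hs) : Hs ⧸ N) = q :=
    fun q => QuotientGroup.out_eq' q
  have hQeq : ∀ a b : Hs, (QuotientGroup.mk a : Hs ⧸ N) = QuotientGroup.mk b ↔
      (a : G K)⁻¹ * (b : G K) ∈ Us := by
    intro a b
    rw [QuotientGroup.eq, Subgroup.mem_subgroupOf]
    rfl
  have hrep_inj : Function.Injective rep := by
    intro q q' hqq
    have h1 : (Quotient.out q : Hs) = Quotient.out q' := Subtype.ext hqq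
    rw [← hmk q, ← hmk q', h1]
  have hτ_inj : Function.Injective (fun q : Hs ⧸ N => (⟨τ (rep q), hτT _ (hrepH q)⟩ : T)) := by
    intro q q' hqq
    have h1 : τ (rep q) = τ (rep q') := congrArg Subtype.val hqq
    have h2 : (τ (rep q))⁻¹ * rep q ∈ Us := hτU _ (hrepH q)
    have h3 : (τ (rep q))⁻¹ * rep q' ∈ Us := by
      rw [h1]
      exact hτU _ (hrepH q')
    have h4 : (rep q)⁻¹ * rep q' ∈ Us := by
      have h5 : (rep q)⁻¹ * rep q' = ((τ (rep q))⁻¹ * rep q)⁻¹ * ((τ (rep q))⁻¹ * rep q') := by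
        group
      rw [h5]
      exact Us.mul_mem (Us.inv_mem h2) h3
    rw [← hmk q, ← hmk q']
    exact (hQeq _ _).2 h4
  have : Finite (Hs ⧸ N) := Finite.of_injective _ hτ_inj
  have : Fintype (Hs ⧸ N) := Fintype.ofFinite _
  -- the permutation property, for every `h₀ ∈ H`
  have hperm : ∀ e : G K → ℂ, (∀ u : G K, InLevelGroup 𝔑 u → ∀ g : G K, e (g * u) = e g) →
      ∀ h₀ : G K, h₀ ∈ Hs → ∀ g : G K,
        ∑ h ∈ (Finset.univ : Finset (Hs ⧸ N)).image rep, e (g * h₀ * h)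
          = ∑ h ∈ (Finset.univ : Finset (Hs ⧸ N)).image rep, e (g * h) := by
    intro e he h₀ hh₀ g
    rw [Finset.sum_image (fun a _ b _ hab => hrep_inj hab),
      Finset.sum_image (fun a _ b _ hab => hrep_inj hab)]
    let h₀' : Hs := ⟨h₀, hh₀⟩
    let σ : Equiv.Perm (Hs ⧸ N) := MulAction.toPerm h₀'
    have hσ : ∀ q : Hs ⧸ N, e (g * h₀ * rep q) = e (g * rep (σ q)) := by
      intro q
      have h1 : σ q = (QuotientGroup.mk (h₀' * (Quotient.out q : Hs)) : Hs ⧸ N) := by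
        show h₀' • q = _
        conv_lhs => rw [← hmk q]
        rfl
      have h2 : (rep (σ q))⁻¹ * (h₀ * rep q) ∈ Us := by
        have h3 := (hQeq (Quotient.out (σ q)) (h₀' * (Quotient.out q : Hs))).1
          ((hmk (σ q)).trans h1)
        exact h3
      have h4 : g * h₀ * rep q = g * rep (σ q) * ((rep (σ q))⁻¹ * (h₀ * rep q)) := by
        group
      rw [h4]
      exact he _ h2 _
    rw [Finset.sum_congr rfl (fun q _ => hσ q)]
    exact Equiv.sum_comp σ (fun q => e (g * rep q))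
  refine ⟨(Finset.univ : Finset (Hs ⧸ N)).image rep, ?_, ?_, ?_, ?_⟩
  · exact ⟨rep (QuotientGroup.mk 1), Finset.mem_image_of_mem rep (Finset.mem_univ _)⟩
  · intro h hh
    obtain ⟨q, -, rfl⟩ := Finset.mem_image.1 hh
    exact hrepH q
  · intro e he h₀ hh₀ g
    exact hperm e he h₀ (hlev h₀ hh₀) g
  · intro e he h₀ hh₀ g
    exact hperm e he h₀ (hiw h₀ hh₀) g

end Fermat.Agent.LT.T7.H454
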