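import Mathlib
import Fermat.Agent.LT.T7.H963.Simple
import Fermat.Agent.LT.T2.H886.CuspAlg
import Fermat.Agent.LT.T2.H472.LocCont

/-!
# Row LT, tower T7, node T7.L2.2.N, leaf S2 `ClassLinC` (helper454)

OFF-MAIN.  No `sorry`, nothing assumed.  Spec: `T7/H963/Simple.lean` (sha256 1da7252d, helper963),
byte-identical copy.  Assets (byte-identical copies): `T2/H886/CuspAlg.lean` (cuspidality is
additive: the fundamental domains of `K` in `𝔸_K` have finite measure), `T2/H472/LocCont.lean`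
(a family supported at an infinite place with continuous components is continuous).

    classLinC454 (K) : H963.ClassLinC K

The class `IsEigFn 𝔫 r l o · C` is stable under sums and scalar multiples: every condition is a
linear identity; the two integrals (constant term, sphere mean) are additive because the
integrands are continuous (and bounded, on a set of finite measure, for the constant term).
-/

set_option autoImplicit false

open IsDedekindDomain NumberField MeasureTheory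

noncomputable section

namespace Fermat.Agent.LT.T7.H454

open Fermat.Agent.LT.H556 Fermat.Agent.LT.H556.A0 Fermat.Agent.LT Fermat.Agent.LT.T7

variable {K : Type} [Field K] [NumberField K]

/-! ## 1. The sphere mean is linear on the continuous functions -/

/-- The entries of `rotZ α * rotY β * torus d` are continuous in `(α, β)`. -/
theorem continuous_sphere_entry454 (d : ℝ) (i j : Fin 2) :
    Continuous fun p : ℝ × ℝ => (rotZ p.1 * rotY p.2 * torus d) i j := by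
  have h1 : Continuous fun p : ℝ × ℝ => rotZ p.1 := by
    unfold rotZ
    apply continuous_matrix
    intro i j
    fin_cases i <;> fin_cases j <;> simp <;> fun_prop
  have h2 : Continuous fun p : ℝ × ℝ => rotY p.2 := by
    unfold rotY
    apply continuous_matrix
    intro i j
    fin_cases i <;> fin_cases j <;> simp <;> fun_prop
  have h3 : Continuous fun p : ℝ × ℝ => rotZ p.1 * rotY p.2 * torus d :=
    (h1.matrix_mul h2).matrix_mul continuous_const
  exact h3.matrix_elem i j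

/-- The parametrisation of a sphere is continuous. -/
theorem continuous_sphere454 {w : InfinitePlace K} {d : ℝ} {Y : ℝ → ℝ → G K}
    (hY : ∀ α β : ℝ, IsLocalAtInf w (Y α β) ∧ infComp w (Y α β) = rotZ α * rotY β * torus d) :
    Continuous fun p : ℝ × ℝ => Y p.1 p.2 := by
  apply T2.H472.locCont472 K w (ℝ × ℝ) (fun p : ℝ × ℝ => Y p.1 p.2) (fun p => (hY p.1 p.2).1)
  intro i j
  have : (fun p : ℝ × ℝ => infComp w (Y p.1 p.2) i j)
      = fun p : ℝ × ℝ => (rotZ p.1 * rotY p.2 * torus d) i j := by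
    funext p
    rw [(hY p.1 p.2).2]
  rw [this]
  exact continuous_sphere_entry454 d i j

/-- The integrand of the sphere mean is continuous in `(α, β)`. -/
theorem continuous_sphere_integrand454 {Y : ℝ → ℝ → G K}
    (hY : Continuous fun p : ℝ × ℝ => Y p.1 p.2) {φ : G K → ℂ} (hφ : Continuous φ) (g : G K) :
    Continuous (Function.uncurry fun α β : ℝ => φ (g * Y α β) * ((Real.sin β : ℝ) : ℂ)) := by
  have h1 : Continuous fun p : ℝ × ℝ => φ (g * Y p.1 p.2) :=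
    hφ.comp (continuous_const.mul hY)
  have h2 : Continuous fun p : ℝ × ℝ => ((Real.sin p.2 : ℝ) : ℂ) := by fun_prop
  exact h1.mul h2

/-- The sphere mean is additive on the continuous functions. -/
theorem sphere_add454 {Y : ℝ → ℝ → G K} (hY : Continuous fun p : ℝ × ℝ => Y p.1 p.2)
    {φ ψ : G K → ℂ} (hφ : Continuous φ) (hψ : Continuous ψ) (g : G K) :
    (∫ α in (0 : ℝ)..(2 * Real.pi), ∫ β in (0 : ℝ)..Real.pi,
        (φ (g * Y α β) + ψ (g * Y α β)) * ((Real.sin β : ℝ) : ℂ))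
      = (∫ α in (0 : ℝ)..(2 * Real.pi), ∫ β in (0 : ℝ)..Real.pi,
          φ (g * Y α β) * ((Real.sin β : ℝ) : ℂ))
        + ∫ α in (0 : ℝ)..(2 * Real.pi), ∫ β in (0 : ℝ)..Real.pi,
          ψ (g * Y α β) * ((Real.sin β : ℝ) : ℂ) := by
  have hcφ := continuous_sphere_integrand454 hY hφ g
  have hcψ := continuous_sphere_integrand454 hY hψ g
  obtain ⟨Fφ, hFφ⟩ : ∃ F : ℝ → ℝ → ℂ,
      F = fun α β : ℝ => φ (g * Y α β) * ((Real.sin β : ℝ) : ℂ) := ⟨_, rfl⟩
  obtain ⟨Fψ, hFψ⟩ : ∃ F : ℝ → ℝ → ℂ,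
      F = fun α β : ℝ => ψ (g * Y α β) * ((Real.sin β : ℝ) : ℂ) := ⟨_, rfl⟩
  rw [← hFφ] at hcφ
  rw [← hFψ] at hcψ
  have e1 : (∫ α in (0 : ℝ)..(2 * Real.pi), ∫ β in (0 : ℝ)..Real.pi,
        (φ (g * Y α β) + ψ (g * Y α β)) * ((Real.sin β : ℝ) : ℂ))
      = ∫ α in (0 : ℝ)..(2 * Real.pi), ∫ β in (0 : ℝ)..Real.pi, (Fφ α β + Fψ α β) := by
    rw [hFφ, hFψ]
    congr 1
    funext α
    congr 1
    funext β
    ring
  have e2 : (∫ α in (0 : ℝ)..(2 * Real.pi), ∫ β in (0 : ℝ)..Real.pi,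
        φ (g * Y α β) * ((Real.sin β : ℝ) : ℂ))
      = ∫ α in (0 : ℝ)..(2 * Real.pi), ∫ β in (0 : ℝ)..Real.pi, Fφ α β := by
    rw [hFφ]
  have e3 : (∫ α in (0 : ℝ)..(2 * Real.pi), ∫ β in (0 : ℝ)..Real.pi,
        ψ (g * Y α β) * ((Real.sin β : ℝ) : ℂ))
      = ∫ α in (0 : ℝ)..(2 * Real.pi), ∫ β in (0 : ℝ)..Real.pi, Fψ α β := by
    rw [hFψ]
  rw [e1, e2, e3]
  have hin : ∀ α : ℝ, (∫ β in (0 : ℝ)..Real.pi, (Fφ α β + Fψ α β))
      = (∫ β in (0 : ℝ)..Real.pi, Fφ α β) + ∫ β in (0 : ℝ)..Real.pi, Fψ α β := by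
    intro α
    have c1 : Continuous fun β : ℝ => Fφ α β := hcφ.comp (Continuous.prodMk_right α)
    have c2 : Continuous fun β : ℝ => Fψ α β := hcψ.comp (Continuous.prodMk_right α)
    exact intervalIntegral.integral_add (c1.intervalIntegrable 0 Real.pi)
      (c2.intervalIntegrable 0 Real.pi)
  have hin' : (fun α : ℝ => ∫ β in (0 : ℝ)..Real.pi, (Fφ α β + Fψ α β))
      = fun α : ℝ => (∫ β in (0 : ℝ)..Real.pi, Fφ α β) + ∫ β in (0 : ℝ)..Real.pi, Fψ α β :=
    funext hin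
  rw [hin']
  have hoφ : Continuous fun α : ℝ => ∫ β in (0 : ℝ)..Real.pi, Fφ α β :=
    intervalIntegral.continuous_parametric_intervalIntegral_of_continuous' hcφ 0 Real.pi
  have hoψ : Continuous fun α : ℝ => ∫ β in (0 : ℝ)..Real.pi, Fψ α β :=
    intervalIntegral.continuous_parametric_intervalIntegral_of_continuous' hcψ 0 Real.pi
  exact intervalIntegral.integral_add (hoφ.intervalIntegrable 0 (2 * Real.pi))
    (hoψ.intervalIntegrable 0 (2 * Real.pi))

/-- The sphere mean is homogeneous. -/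
theorem sphere_smul454 (Y : ℝ → ℝ → G K) (c : ℂ) (φ : G K → ℂ) (g : G K) :
    (∫ α in (0 : ℝ)..(2 * Real.pi), ∫ β in (0 : ℝ)..Real.pi,
        (c * φ (g * Y α β)) * ((Real.sin β : ℝ) : ℂ))
      = c * ∫ α in (0 : ℝ)..(2 * Real.pi), ∫ β in (0 : ℝ)..Real.pi,
          φ (g * Y α β) * ((Real.sin β : ℝ) : ℂ) := by
  rw [← intervalIntegral.integral_const_mul]
  congr 1
  funext α
  rw [← intervalIntegral.integral_const_mul]
  congr 1
  funext β
  ring

/-! ## 2. The conditions, one at a time -/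

theorem meanEig_add454 {ψ ψ' : G K → ℂ} (hψ : Continuous ψ) (hψ' : Continuous ψ')
    {w : InfinitePlace K} {m : ℝ → ℂ} (h : MeanEig ψ w m) (h' : MeanEig ψ' w m) :
    MeanEig (fun x => ψ x + ψ' x) w m := by
  intro d hd Y hY g
  have hYc := continuous_sphere454 hY
  show (∫ α in (0 : ℝ)..(2 * Real.pi), ∫ β in (0 : ℝ)..Real.pi,
        (ψ (g * Y α β) + ψ' (g * Y α β)) * ((Real.sin β : ℝ) : ℂ)) = m d * (ψ g + ψ' g)
  rw [sphere_add454 hYc hψ hψ' g, h d hd Y hY g, h' d hd Y hY g, mul_add]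

theorem meanEig_smul454 (c : ℂ) {ψ : G K → ℂ} {w : InfinitePlace K} {m : ℝ → ℂ}
    (h : MeanEig ψ w m) : MeanEig (fun x => c * ψ x) w m := by
  intro d hd Y hY g
  show (∫ α in (0 : ℝ)..(2 * Real.pi), ∫ β in (0 : ℝ)..Real.pi,
        (c * ψ (g * Y α β)) * ((Real.sin β : ℝ) : ℂ)) = m d * (c * ψ g)
  rw [sphere_smul454 Y c ψ g, h d hd Y hY g, mul_left_comm]

theorem heckeEigen_add454 {ψ ψ' : G K → ℂ} {v : HeightOneSpectrum (𝓞 K)} {a b : ℂ}
    (h : IsHeckeEigenAt ψ v a b) (h' : IsHeckeEigenAt ψ' v a b) :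
    IsHeckeEigenAt (fun x => ψ x + ψ' x) v a b := by
  refine ⟨fun H hH g => ?_, fun z hz g => ?_⟩
  · show ∑ x ∈ H, (ψ (g * x) + ψ' (g * x)) = _ * a * (ψ g + ψ' g)
    rw [Finset.sum_add_distrib, h.1 H hH g, h'.1 H hH g, mul_add]
  · show ψ (g * z) + ψ' (g * z) = b * (ψ g + ψ' g)
    rw [h.2 z hz g, h'.2 z hz g, mul_add]

theorem heckeEigen_smul454 (c : ℂ) {ψ : G K → ℂ} {v : HeightOneSpectrum (𝓞 K)} {a b : ℂ}
    (h : IsHeckeEigenAt ψ v a b) : IsHeckeEigenAt (fun x => c * ψ x) v a b := by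
  refine ⟨fun H hH g => ?_, fun z hz g => ?_⟩
  · show ∑ x ∈ H, c * ψ (g * x) = _ * a * (c * ψ g)
    rw [← Finset.mul_sum, h.1 H hH g, mul_left_comm]
  · show c * ψ (g * z) = b * (c * ψ g)
    rw [h.2 z hz g, mul_left_comm]

theorem isAutomorphicFn_add454 {𝔫 : Ideal (𝓞 K)} {τ : G K → ℂ} {r : G K} {ψ ψ' : G K → ℂ}
    (h : T5.IsAutomorphicFn 𝔫 τ r ψ) (h' : T5.IsAutomorphicFn 𝔫 τ r ψ') :
    T5.IsAutomorphicFn 𝔫 τ r (fun x => ψ x + ψ' x) where
  left_inv := fun γ g => by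
    show ψ (T5.ratG γ * g) + ψ' (T5.ratG γ * g) = ψ g + ψ' g
    rw [h.left_inv γ g, h'.left_inv γ g]
  level_inv := fun u hu g => by
    show ψ (g * u) + ψ' (g * u) = ψ g + ψ' g
    rw [h.level_inv u hu g, h'.level_inv u hu g]
  arch_compact := fun w k hk g => by
    show ψ (g * k) + ψ' (g * k) = τ k * (ψ g + ψ' g)
    rw [h.arch_compact w k hk g, h'.arch_compact w k hk g, mul_add]
  ray := fun g => by
    show ψ (g * r) + ψ' (g * r) = ψ g + ψ' g
    rw [h.ray g, h'.ray g]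

theorem isAutomorphicFn_smul454 (c : ℂ) {𝔫 : Ideal (𝓞 K)} {τ : G K → ℂ} {r : G K}
    {ψ : G K → ℂ} (h : T5.IsAutomorphicFn 𝔫 τ r ψ) :
    T5.IsAutomorphicFn 𝔫 τ r (fun x => c * ψ x) where
  left_inv := fun γ g => by
    show c * ψ (T5.ratG γ * g) = c * ψ g
    rw [h.left_inv γ g]
  level_inv := fun u hu g => by
    show c * ψ (g * u) = c * ψ g
    rw [h.level_inv u hu g]
  arch_compact := fun w k hk g => by
    show c * ψ (g * k) = τ k * (c * ψ g)
    rw [h.arch_compact w k hk g, mul_left_comm]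
  ray := fun g => by
    show c * ψ (g * r) = c * ψ g
    rw [h.ray g]

theorem isCuspFn_add454 {𝔫 : Ideal (𝓞 K)} {τ : G K → ℂ} {r : G K} {ψ ψ' : G K → ℂ}
    (h : T5.IsCuspFn 𝔫 τ r ψ) (h' : T5.IsCuspFn 𝔫 τ r ψ') :
    T5.IsCuspFn 𝔫 τ r (fun x => ψ x + ψ' x) := by
  obtain ⟨C, hC⟩ := h.bdd
  obtain ⟨C', hC'⟩ := h'.bdd
  refine ⟨h.cont.add h'.cont, ⟨C + C', fun g => ?_⟩, isAutomorphicFn_add454 h.aut h'.aut, ?_⟩
  · exact (norm_add_le _ _).trans (add_le_add (hC g) (hC' g))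
  · exact T2.H886.isCuspidalFn_add886 h.cont hC h'.cont hC' h.cuspidal h'.cuspidal

theorem isCuspFn_smul454 (c : ℂ) {𝔫 : Ideal (𝓞 K)} {τ : G K → ℂ} {r : G K} {ψ : G K → ℂ}
    (h : T5.IsCuspFn 𝔫 τ r ψ) : T5.IsCuspFn 𝔫 τ r (fun x => c * ψ x) := by
  obtain ⟨C, hC⟩ := h.bdd
  refine ⟨continuous_const.mul h.cont, ⟨‖c‖ * C, fun g => ?_⟩, isAutomorphicFn_smul454 c h.aut,
    T2.H886.isCuspidalFn_const_mul886 c h.cuspidal⟩
  rw [norm_mul]
  exact mul_le_mul_of_nonneg_left (hC g) (norm_nonneg c)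

theorem isWFn_add454 {𝔫 : Ideal (𝓞 K)} {r : G K} {l : ℕ} {o : ℕ → HeightOneSpectrum (𝓞 K)}
    {ψ ψ' : G K → ℂ} (h : IsWFn 𝔫 r l o ψ) (h' : IsWFn 𝔫 r l o ψ') :
    IsWFn 𝔫 r l o (fun x => ψ x + ψ' x) where
  cusp := isCuspFn_add454 h.cusp h'.cusp
  arch_scalar := fun w z hz g => by
    show ψ (g * z) + ψ' (g * z) = ψ g + ψ' g
    rw [h.arch_scalar w z hz g, h'.arch_scalar w z hz g]
  iw := fun k h1 h2 h3 x => by
    show ψ (x * k) + ψ' (x * k) = ψ x + ψ' x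
    rw [h.iw k h1 h2 h3 x, h'.iw k h1 h2 h3 x]

theorem isWFn_smul454 (c : ℂ) {𝔫 : Ideal (𝓞 K)} {r : G K} {l : ℕ}
    {o : ℕ → HeightOneSpectrum (𝓞 K)} {ψ : G K → ℂ} (h : IsWFn 𝔫 r l o ψ) :
    IsWFn 𝔫 r l o (fun x => c * ψ x) where
  cusp := isCuspFn_smul454 c h.cusp
  arch_scalar := fun w z hz g => by
    show c * ψ (g * z) = c * ψ g
    rw [h.arch_scalar w z hz g]
  iw := fun k h1 h2 h3 x => by
    show c * ψ (x * k) = c * ψ x
    rw [h.iw k h1 h2 h3 x]

/-! ## 3. The leaf -/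

/-- **LEAF T7.L2.2.N.S2: the class is stable under sums and scalar multiples.** -/
theorem classLinC454 (K : Type) [Field K] [NumberField K] :
    Fermat.Agent.LT.T7.H963.ClassLinC K := by
  intro 𝔫 r l o C
  refine ⟨fun ψ ψ' h h' => ?_, fun c ψ h => ?_⟩
  · exact ⟨isWFn_add454 h.inv h'.inv, fun v hv => heckeEigen_add454 (h.hecke v hv) (h'.hecke v hv),
      fun w => meanEig_add454 h.inv.cusp.cont h'.inv.cusp.cont (h.mean w) (h'.mean w)⟩
  · exact ⟨isWFn_smul454 c h.inv, fun v hv => heckeEigen_smul454 c (h.hecke v hv),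
      fun w => meanEig_smul454 c (h.mean w)⟩

end Fermat.Agent.LT.T7.H454
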